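/-
Programme T1B (row 38 via S44), GLOBAL contract `NonEisenstein` of `T1B/Local66/Assembly.lean`
(helper2): for the Frey curve with `E[p]` irreducible and any integral model `W`, some good prime
`ℓ ∤ L` has `p ∤ a_ℓ(W) - (ℓ + 1)`.

This is chapter (EC) of S41 (`ES/EC/ECFinal8.exists_good_prime_not_dvd_card`: weak Chebotarev +
irreducibility + lifting of torsion points), applied with the finite set `T` of prime factors
of `L`.  NOTE: the level `L` must be nonzero (`Good W 0 ℓ` never holds).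
-/
import Mathlib
import Fermat.Agent.ES.EC.ECFinal8
import Fermat.Agent.T1B.Top68.Global

set_option autoImplicit false

open WeierstrassCurve WeierstrassCurve.Affine WeierstrassCurve.Affine.Point

namespace Fermat.Agent.T1B.NonEis2

open Fermat.Agent.T1B.Top68

/-- The discriminant of the Frey curve. -/
theorem freyCurve_Δ_eq (P : FreyPackage) :
    P.freyCurve.Δ = ((P.a : ℚ) ^ P.p * (P.b : ℚ) ^ P.p * (P.c : ℚ) ^ P.p) ^ 2 / 256 := by
  have hc : (P.c : ℚ) ^ P.p = (P.a : ℚ) ^ P.p + (P.b : ℚ) ^ P.p := by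
    have := P.hFLT
    exact_mod_cast this.symm
  rw [hc]
  simp only [WeierstrassCurve.Δ, WeierstrassCurve.b₂, WeierstrassCurve.b₄, WeierstrassCurve.b₆,
    WeierstrassCurve.b₈, FreyPackage.freyCurve]
  ring

theorem freyCurve_Δ_ne_zero (P : FreyPackage) : P.freyCurve.Δ ≠ 0 := by
  rw [freyCurve_Δ_eq]
  have ha : (P.a : ℚ) ≠ 0 := by exact_mod_cast P.ha0
  have hb : (P.b : ℚ) ≠ 0 := by exact_mod_cast P.hb0
  have hc : (P.c : ℚ) ≠ 0 := by exact_mod_cast P.hc0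
  positivity

theorem freyCurve_isElliptic (P : FreyPackage) : P.freyCurve.IsElliptic :=
  ⟨isUnit_iff_ne_zero.mpr (freyCurve_Δ_ne_zero P)⟩

/-- **Non-Eisenstein, general form**: an elliptic curve `E/ℚ` with `E[p]` irreducible (`p` odd),
an integral model `W`, a nonzero level `L`: some prime `ℓ ∤ L` of good reduction for `W` has
`p ∤ a_ℓ(W) - (ℓ + 1)`. -/
theorem exists_good_not_eisenstein (E : WeierstrassCurve ℚ) [E.IsElliptic]
    {W : WeierstrassCurve ℤ} (hW : W.IsIntegralModelOf E) {p : ℕ} (hp : p.Prime) (hp2 : p ≠ 2)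
    (hirr : GaloisRepIsIrreducible (K := AlgebraicClosure ℚ) ℚ E p) {L : ℕ} (hL : L ≠ 0) :
    ∃ ℓ : Nat.Primes, Good W L ℓ ∧ ℓ.1 ≠ p ∧
      ¬ (p : ℤ) ∣ W.apOfModel ℓ - ((ℓ : ℕ) + 1 : ℤ) := by
  obtain ⟨ℓ, hℓ, hℓT, hgood, hℓp, hnd⟩ :=
    Fermat.Agent.ES.EC.ECFinal8.exists_good_prime_not_dvd_card E hW hp hp2 hirr L.primeFactors
  refine ⟨⟨ℓ, hℓ⟩, ⟨hℓ, hgood, fun hdvd => hℓT ?_⟩, hℓp, fun hdvd => hnd ?_⟩
  · exact Nat.mem_primeFactors.mpr ⟨hℓ, hdvd, hL⟩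
  · have : ((ℓ : ℤ) + 1 - W.apOfModel ℓ) = -(W.apOfModel ℓ - ((ℓ : ℕ) + 1 : ℤ)) := by ring
    rw [this]
    exact (dvd_neg).mpr hdvd

/-- **`NonEisenstein` for the Frey curve** (the contract of `Local66.Assembly`, with `L ≠ 0`). -/
theorem nonEisenstein (P : FreyPackage) (W : WeierstrassCurve ℤ) (L : ℕ) (hL : L ≠ 0)
    (hW : W.IsIntegralModelOf P.freyCurve)
    (hirr : GaloisRepIsIrreducible (K := AlgebraicClosure ℚ) ℚ P.freyCurve P.p) :
    ∃ ℓ : Nat.Primes, Good W L ℓ ∧ ¬ (P.p : ℤ) ∣ W.apOfModel ℓ - ((ℓ : ℕ) + 1 : ℤ) := by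
  have := freyCurve_isElliptic P
  have hp2 : P.p ≠ 2 := by have := P.hp5; omega
  obtain ⟨ℓ, h1, -, h2⟩ := exists_good_not_eisenstein P.freyCurve hW P.pp hp2 hirr hL
  exact ⟨ℓ, h1, h2⟩

end Fermat.Agent.T1B.NonEis2
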